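/-
S55 / layer K / block AR, leaves AR-J3 + AR-JDIV (helper243), part 1: abstract base lemmas.

For a class module at `p` (`E1.IsClassModuleAt p C γ`, finite group `Γ`) and ANY subgroup `Y ≤ Γ`:
* `pz_h3` : the `p`-primary part of `H³(Y, C)` vanishes;
* `pd_h2` : if `p^(b+1)` divides `|Y|`, every class of `H²(Y, C)` killed by `p^b` is divisible by `p`.
Plus the bookkeeping predicates `PZ`, `PD` and their stability properties.
-/
import Fermat.Agent.S55.E1.Defs
import Fermat.Agent.S55.T.CoresH572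
import Fermat.Agent.S55.T.T6pH353.SylowClass
import Fermat.Agent.S55.T.TateH3H783

set_option autoImplicit false
set_option linter.style.haveILetI false

open CategoryTheory groupCohomology

noncomputable section

namespace Fermat.Agent.S55.K.AR.H243

open Fermat.Agent.S55

/-! ## Bookkeeping predicates -/

/-- `PZ p X`: the `p`-primary part of `X` vanishes. -/
def PZ (p : ℕ) (X : Type) [AddCommGroup X] : Prop :=
  ∀ y : X, (∃ k : ℕ, p ^ k • y = 0) → y = 0

/-- `PD p b X`: every element of `X` killed by `p^b` is divisible by `p`. -/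
def PD (p b : ℕ) (X : Type) [AddCommGroup X] : Prop :=
  ∀ y : X, p ^ b • y = 0 → ∃ z : X, p • z = y

section Stability

variable {p b : ℕ} {X Y : Type} [AddCommGroup X] [AddCommGroup Y]

lemma PZ.of_injective (f : X →+ Y) (hf : Function.Injective f) (h : PZ p Y) : PZ p X := by
  rintro y ⟨k, hk⟩
  apply hf
  rw [map_zero]
  exact h (f y) ⟨k, by rw [← map_nsmul, hk, map_zero]⟩

lemma PD.of_equiv (e : X ≃+ Y) (h : PD p b X) : PD p b Y := by
  intro y hy
  obtain ⟨z, hz⟩ := h (e.symm y) (by rw [← map_nsmul, hy, map_zero])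
  exact ⟨e z, by rw [← map_nsmul, hz, AddEquiv.apply_symm_apply]⟩

lemma PZ.of_injective' (f : X → Y) (hadd : ∀ a c, f (a + c) = f a + f c)
    (hf : Function.Injective f) (h : PZ p Y) : PZ p X :=
  PZ.of_injective (AddMonoidHom.mk' f hadd) hf h

lemma PD.of_bijective' (f : X → Y) (hadd : ∀ a c, f (a + c) = f a + f c)
    (hf : Function.Bijective f) (h : PD p b X) : PD p b Y :=
  PD.of_equiv (AddEquiv.ofBijective (AddMonoidHom.mk' f hadd) hf) h

lemma PZ.pi {ι : Type} {Z : ι → Type} [∀ i, AddCommGroup (Z i)] (h : ∀ i, PZ p (Z i)) :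
    PZ p (∀ i, Z i) := by
  rintro y ⟨k, hk⟩
  funext i
  exact h i (y i) ⟨k, congrFun hk i⟩

lemma PD.pi {ι : Type} {Z : ι → Type} [∀ i, AddCommGroup (Z i)] (h : ∀ i, PD p b (Z i)) :
    PD p b (∀ i, Z i) := by
  intro y hy
  choose z hz using fun i => h i (y i) (congrFun hy i)
  exact ⟨z, funext hz⟩

lemma PZ.of_retract {ι : Type} [Fintype ι] {Z : ι → Type} [∀ i, AddCommGroup (Z i)]
    (pr : ∀ i, X →+ Z i) (inc : ∀ i, Z i →+ X) (hsum : ∀ y : X, ∑ i, inc i (pr i y) = y)
    (h : ∀ i, PZ p (Z i)) : PZ p X := by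
  rintro y ⟨k, hk⟩
  rw [← hsum y]
  refine Finset.sum_eq_zero fun i _ => ?_
  rw [h i (pr i y) ⟨k, by rw [← map_nsmul, hk, map_zero]⟩, map_zero]

lemma PD.of_retract {ι : Type} [Fintype ι] {Z : ι → Type} [∀ i, AddCommGroup (Z i)]
    (pr : ∀ i, X →+ Z i) (inc : ∀ i, Z i →+ X) (hsum : ∀ y : X, ∑ i, inc i (pr i y) = y)
    (h : ∀ i, PD p b (Z i)) : PD p b X := by
  intro y hy
  choose z hz using fun i => h i (pr i y) (by rw [← map_nsmul, hy, map_zero])
  refine ⟨∑ i, inc i (z i), ?_⟩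
  rw [Finset.smul_sum, ← hsum y]
  refine Finset.sum_congr rfl fun i _ => ?_
  rw [← map_nsmul, hz i]

end Stability

/-! ## Elementary arithmetic -/

/-- An element killed by two coprime integers is zero. -/
lemma eq_zero_of_coprime_nsmul243 {A : Type} [AddCommGroup A] {m n : ℕ} (h : Nat.Coprime m n)
    {x : A} (hm : m • x = 0) (hn : n • x = 0) : x = 0 := by
  have h3 : addOrderOf x ∣ 1 := by
    rw [← Nat.Coprime.gcd_eq_one h]
    exact Nat.dvd_gcd (addOrderOf_dvd_of_nsmul_eq_zero hm) (addOrderOf_dvd_of_nsmul_eq_zero hn)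
  exact AddMonoid.addOrderOf_eq_one_iff.1 (Nat.dvd_one.1 h3)

/-- If `k • x = 0` and `m` is prime to `k`, then `x` is a multiple of `m • x`. -/
lemma exists_mul_nsmul_eq243 {A : Type} [AddCommGroup A] {m k : ℕ} (h : Nat.Coprime m k) {x : A}
    (hk : k • x = 0) : ∃ a : ℕ, (a * m) • x = x := by
  rcases Nat.lt_or_ge 1 k with h1 | h1
  · obtain ⟨a, -, ha⟩ := Nat.exists_mul_mod_eq_one_of_coprime h h1
    refine ⟨a, ?_⟩
    have h2 : a * m = k * (m * a / k) + 1 := by
      have := Nat.div_add_mod (m * a) k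
      rw [ha] at this
      rw [mul_comm a m]
      exact this.symm
    rw [h2, add_smul, mul_comm, mul_smul, hk, smul_zero, zero_add, one_smul]
  · interval_cases k
    · have hm : m = 1 := by simpa using h
      exact ⟨1, by rw [hm, one_mul, one_smul]⟩
    · have hx : x = 0 := by rwa [one_smul] at hk
      exact ⟨0, by rw [hx, smul_zero]⟩

/-- If `p^(b+1+c) ∣ y * t` with `0 < t ≤ p^c`, then `p^(b+1) ∣ y`. -/
lemma pow_dvd_of_dvd_mul_le243 {p : ℕ} (hp : p.Prime) {b c y t : ℕ} (ht : 0 < t)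
    (htc : t ≤ p ^ c) (hy : 0 < y) (h : p ^ (b + 1 + c) ∣ y * t) : p ^ (b + 1) ∣ y := by
  haveI : Fact p.Prime := ⟨hp⟩
  have h1 : b + 1 + c ≤ padicValNat p (y * t) :=
    (padicValNat_dvd_iff_le (Nat.mul_ne_zero hy.ne' ht.ne')).1 h
  rw [padicValNat.mul hy.ne' ht.ne'] at h1
  have h2 : padicValNat p t ≤ c := by
    have h3 : p ^ padicValNat p t ∣ t := pow_padicValNat_dvd
    have h4 : p ^ padicValNat p t ≤ p ^ c := (Nat.le_of_dvd ht h3).trans htc
    exact (Nat.pow_le_pow_iff_right hp.one_lt).1 h4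
  exact (padicValNat_dvd_iff_le hy.ne').2 (by omega)

/-! ## Restriction to `⊤` -/

/-- Restriction to `⊤` is injective. -/
lemma resMap_top_injective243 {k Γ : Type} [CommRing k] [Group Γ] (A : Rep.{0} k Γ) (n : ℕ) :
    Function.Injective (T.resMap A (⊤ : Subgroup Γ) n).hom := by
  let e : (⊤ : Subgroup Γ) ≃* Γ := Subgroup.topEquiv
  have he : ∀ g : (⊤ : Subgroup Γ),
      (LinearEquiv.refl k A.V).toLinearMap ∘ₗ (T.resSub A ⊤).ρ g =
        A.ρ (e g) ∘ₗ (LinearEquiv.refl k A.V).toLinearMap := fun g => rfl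
  let I := groupCohomology.mapIso (A := A) (B := T.resSub A ⊤) e (LinearEquiv.refl k A.V) he n
  have hI : T.resMap A (⊤ : Subgroup Γ) n = I.inv := rfl
  rw [hI]
  exact (ConcreteCategory.bijective_of_isIso I.inv).1

/-! ## Class modules at `p` and arbitrary subgroups -/

section ClassModule

variable {Γ : Type} [Group Γ] [Finite Γ] {p : ℕ} (hp : p.Prime) (C : Rep.{0} ℤ Γ)
  (γ : groupCohomology C 2) (hC : E1.IsClassModuleAt p C γ) (Y : Subgroup Γ)

include hp hC

/-- The `p`-primary part of `H³(Y, C)` vanishes, for every subgroup `Y`. -/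
theorem pz_h3 : PZ p (groupCohomology (T.resSub C Y) 3) := by
  classical
  rintro y ⟨k, hk⟩
  haveI : Fact p.Prime := ⟨hp⟩
  obtain ⟨P⟩ : Nonempty (Sylow p Y) := inferInstance
  have hP' : IsPGroup p ((P : Subgroup Y).map Y.subtype) := P.isPGroup'.map Y.subtype
  have hcm := T.H353.isClassModule_of_isPGroup hC _ hP'
  have hz0 := T.H783.tateH3 _ _ _ hcm ⊤
  have hz1 : Limits.IsZero
      (groupCohomology (T.resSub C ((P : Subgroup Y).map Y.subtype)) 3) := by
    rw [ModuleCat.isZero_iff_subsingleton]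
    haveI := ModuleCat.isZero_iff_subsingleton.1 hz0
    exact (resMap_top_injective243 _ 3).subsingleton
  have hz2 : Limits.IsZero
      (groupCohomology (T.resSub (T.resSub C Y) (P : Subgroup Y)) 3) :=
    Limits.IsZero.of_iso hz1 (T.H353.resResIso353 C Y (P : Subgroup Y) 3)
  have h0 : (T.resMap (T.resSub C Y) (P : Subgroup Y) 3).hom y = 0 :=
    (ModuleCat.isZero_iff_subsingleton.1 hz2).elim _ _
  have h1 : (P : Subgroup Y).index • y = 0 :=
    T.H572.resIndex ℤ Y (T.resSub C Y) (P : Subgroup Y) 3 (by norm_num) y h0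
  have hcop : Nat.Coprime (P : Subgroup Y).index (p ^ k) :=
    Nat.Coprime.pow_right k ((Nat.Prime.coprime_iff_not_dvd hp).2 P.not_dvd_index).symm
  exact eq_zero_of_coprime_nsmul243 hcop h1 hk

/-- If `p^(b+1)` divides `|Y|`, every class of `H²(Y, C)` killed by `p^b` is divisible by `p`. -/
theorem pd_h2 (b : ℕ) (hb : p ^ (b + 1) ∣ Nat.card Y) :
    PD p b (groupCohomology (T.resSub C Y) 2) := by
  classical
  intro y hy
  haveI : Fact p.Prime := ⟨hp⟩
  obtain ⟨P⟩ : Nonempty (Sylow p Y) := inferInstance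
  have hP' : IsPGroup p ((P : Subgroup Y).map Y.subtype) := P.isPGroup'.map Y.subtype
  obtain ⟨-, -, hgen⟩ := hC _ hP'
  have hord := T.H353.addOrderOf_resMap_of_classModuleAt hC _ hP'
  rw [T.H353.card_map_subtype353] at hord
  -- `p^(b+1)` divides `|P|`
  have hbP : p ^ (b + 1) ∣ Nat.card (P : Subgroup Y) := by
    rw [Sylow.card_eq_multiplicity]
    exact pow_dvd_pow p ((Nat.Prime.pow_dvd_iff_le_factorization hp Nat.card_pos.ne').1 hb)
  set E := T.H353.resResIso353 C Y (P : Subgroup Y) 2 with hE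
  set g := (T.resMap C ((P : Subgroup Y).map Y.subtype) 2).hom γ with hg
  set γY := (T.resMap C Y 2).hom γ with hγY
  set r := (T.resMap (T.resSub C Y) (P : Subgroup Y) 2).hom with hr
  have hEγ : E.hom.hom (r γY) = g := T.H353.resResIso353_hom_resMap C Y (P : Subgroup Y) 2 γ
  have hinj : Function.Injective E.hom.hom := by
    intro a c hac
    have h := congrArg E.inv.hom hac
    have e := fun z => congrArg (fun f => f.hom z) E.hom_inv_id
    exact (e a).symm.trans (h.trans (e c))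
  obtain ⟨n, hn⟩ := hgen (E.hom.hom (r y))
  -- `p ∣ n`
  have h0 : (p ^ b * n) • g = 0 := by
    rw [mul_smul, ← hn, ← map_nsmul, ← map_nsmul, hy, map_zero, map_zero]
  have h1 : Nat.card (P : Subgroup Y) ∣ p ^ b * n := by
    rw [← hord]
    exact addOrderOf_dvd_of_nsmul_eq_zero h0
  have h2 : p ∣ n := by
    have h3 : p ^ b * p ∣ p ^ b * n := by
      rw [← pow_succ]
      exact hbP.trans h1
    exact (Nat.mul_dvd_mul_iff_left (pow_pos hp.pos b)).1 h3
  obtain ⟨n', rfl⟩ := h2
  -- `y - n γ_Y` dies on `P`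
  have h4 : r (y - (p * n') • γY) = 0 := by
    apply hinj
    rw [map_sub, map_sub, map_nsmul, map_nsmul, hEγ, hn, sub_self, map_zero]
  have h5 : (P : Subgroup Y).index • (y - (p * n') • γY) = 0 :=
    T.H572.resIndex ℤ Y (T.resSub C Y) (P : Subgroup Y) 2 (by norm_num) _ h4
  have hcop : Nat.Coprime (P : Subgroup Y).index (p ^ b) :=
    Nat.Coprime.pow_right b ((Nat.Prime.coprime_iff_not_dvd hp).2 P.not_dvd_index).symm
  obtain ⟨a, ha⟩ := exists_mul_nsmul_eq243 hcop hy
  refine ⟨(a * (P : Subgroup Y).index * n') • γY, ?_⟩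
  have h6 : (P : Subgroup Y).index • y = ((P : Subgroup Y).index * (p * n')) • γY := by
    rw [smul_sub, sub_eq_zero] at h5
    rw [h5]
    exact (mul_smul _ _ _).symm
  calc p • (a * (P : Subgroup Y).index * n') • γY
      = a • (((P : Subgroup Y).index * (p * n')) • γY) := by
        rw [← mul_smul, ← mul_smul]
        congr 1
        ring
    _ = (a * (P : Subgroup Y).index) • y := by rw [← h6, mul_smul]
    _ = y := ha

end ClassModule

end Fermat.Agent.S55.K.AR.H243

end
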