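/-
S55 / layer K / block AR, leaves AR-J3 + AR-JDIV (helper243), part 2: Mackey–Shapiro for a module
coinduced along an injective homomorphism `φ : Dg →* G` from a class module at `p`.

* `pz_resCoind` : the `p`-primary part of `H³(H, Res_H Coind_φ B)` vanishes;
* `pd_resCoind` : if `[G : H] ≤ p^c` and `p^(b+1+c) ∣ |Dg|`, every class of
  `H²(H, Res_H Coind_φ B)` killed by `p^b` is divisible by `p`.
-/
import Fermat.Agent.S55.K.AR.H243.Base
import Fermat.Agent.S55.T.MackeyH243
import Fermat.Agent.S55.H173.ShapiroInj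

set_option autoImplicit false
set_option linter.style.haveILetI false

open CategoryTheory groupCohomology

noncomputable section

namespace Fermat.Agent.S55.K.AR.H243

open Fermat.Agent.S55

section Abstract

variable {G Dg : Type} [Group G] [Group Dg] {φ : Dg →* G} (hφ : Function.Injective φ)
  (B : Rep.{0} ℤ Dg)

/-- The subgroup of `Dg` corresponding to a subgroup of the range of `φ`. -/
abbrev pre (Y : Subgroup φ.range) : Subgroup Dg :=
  Y.map ((MonoidHom.ofInjective hφ).symm.toMonoidHom)

/-- `Hⁿ(Y, B) ≅ Hⁿ(Y₀, B)` for `Y ≤ φ(Dg)` and `Y₀` the corresponding subgroup of `Dg`. -/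
def subRangeIso (Y : Subgroup φ.range) (n : ℕ) :
    groupCohomology (Rep.res Y.subtype (H173.rangeRep hφ B)) n ≅
      groupCohomology (T.resSub B (pre hφ Y)) n :=
  groupCohomology.mapIso (A := T.resSub B (pre hφ Y))
    (B := Rep.res Y.subtype (H173.rangeRep hφ B))
    ((MonoidHom.ofInjective hφ).symm.subgroupMap Y) (@LinearEquiv.refl ℤ B.V _ _ B.hV2)
    (fun _ => rfl) n

lemma card_pre (Y : Subgroup φ.range) : Nat.card (pre hφ Y) = Nat.card Y :=
  (Nat.card_congr ((MonoidHom.ofInjective hφ).symm.subgroupMap Y).toEquiv).symm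

/-- `Hⁿ(H, Res_H Coind_φ B) ≅ Hⁿ(H, Res_H Coind_{φ(Dg)} B)`. -/
def coindRangeCohIso (H : Subgroup G) (n : ℕ) :
    groupCohomology (Rep.res H.subtype (Rep.coind φ B)) n ≅
      groupCohomology (T.H243.resCoind H φ.range (H173.rangeRep hφ B)) n :=
  (groupCohomology.functor ℤ H n).mapIso
    ((Rep.resFunctor H.subtype).mapIso (H173.coindRangeIso hφ B))

end Abstract

section Index

variable {G : Type} [Group G] [Finite G] (D H : Subgroup G)

/-- The Mackey factors have index at most `[G : H]`. -/
lemma index_dsub_le (x : G) : (T.H243.dsub H D x).index ≤ H.index := by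
  rw [T.H243.dsub_eq]
  have h1 : (H.map (MulAut.conj x).toMonoidHom).index = H.index :=
    Subgroup.index_map_equiv H (MulAut.conj x)
  have h2 : (H.map (MulAut.conj x).toMonoidHom).relIndex ⊤ ≠ 0 := by
    rw [Subgroup.relIndex_top_right, h1]
    exact Subgroup.index_ne_zero_of_finite
  have h3 := Subgroup.relIndex_le_of_le_right (H := H.map (MulAut.conj x).toMonoidHom)
    (le_top : D ≤ ⊤) h2
  rw [Subgroup.relIndex_top_right, h1] at h3
  exact h3

end Index

section Main

variable {G Dg : Type} [Group G] [Group Dg] [Finite G] [Finite Dg] {φ : Dg →* G}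
  (hφ : Function.Injective φ) (B : Rep.{0} ℤ Dg) {p : ℕ} (hp : p.Prime)
  (γ : groupCohomology B 2) (hB : E1.IsClassModuleAt p B γ) (H : Subgroup G)

include hφ hp hB

/-- The `p`-primary part of `H³(H, Res_H Coind_φ B)` vanishes. -/
theorem pz_resCoind : PZ p (groupCohomology (Rep.res H.subtype (Rep.coind φ B)) 3) := by
  have h1 : ∀ x : DoubleCoset.Quotient (φ.range : Set G) (H : Set G),
      PZ p (groupCohomology (Rep.res (T.H243.dsub H φ.range (T.H243.reps H φ.range x)).subtype
        (H173.rangeRep hφ B)) 3) := fun x =>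
    PZ.of_injective' (subRangeIso hφ B _ 3).hom.hom (map_add _)
      (ConcreteCategory.bijective_of_isIso (subRangeIso hφ B _ 3).hom).1 (pz_h3 hp B γ hB _)
  have h2 := PZ.pi h1
  have h3 := PZ.of_injective'
    (T.H243.mackeyShapiro H φ.range (H173.rangeRep hφ B) 3)
    (T.H243.mackeyShapiro H φ.range (H173.rangeRep hφ B) 3).map_add
    (T.H243.mackeyShapiro H φ.range (H173.rangeRep hφ B) 3).injective h2
  exact PZ.of_injective' (coindRangeCohIso hφ B H 3).hom.hom (map_add _)
    (ConcreteCategory.bijective_of_isIso (coindRangeCohIso hφ B H 3).hom).1 h3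

/-- If `[G : H] ≤ p^c` and `p^(b+1+c)` divides `|Dg|`, every class of `H²(H, Res_H Coind_φ B)`
killed by `p^b` is divisible by `p`. -/
theorem pd_resCoind (b c : ℕ) (hc : H.index ≤ p ^ c) (hcard : p ^ (b + 1 + c) ∣ Nat.card Dg) :
    PD p b (groupCohomology (Rep.res H.subtype (Rep.coind φ B)) 2) := by
  have hD : Nat.card φ.range = Nat.card Dg :=
    (Nat.card_congr (MonoidHom.ofInjective hφ).toEquiv).symm
  have h1 : ∀ x : DoubleCoset.Quotient (φ.range : Set G) (H : Set G),
      PD p b (groupCohomology (Rep.res (T.H243.dsub H φ.range (T.H243.reps H φ.range x)).subtype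
        (H173.rangeRep hφ B)) 2) := fun x => by
    set Y := T.H243.dsub H φ.range (T.H243.reps H φ.range x) with hY
    have hidx : Y.index ≤ p ^ c := (index_dsub_le φ.range H _).trans hc
    have hmul : Nat.card Y * Y.index = Nat.card Dg := by
      rw [Subgroup.card_mul_index, hD]
    have hdvd : p ^ (b + 1) ∣ Nat.card Y :=
      pow_dvd_of_dvd_mul_le243 hp (Nat.pos_of_ne_zero Subgroup.index_ne_zero_of_finite) hidx
        Nat.card_pos (by rw [hmul]; exact hcard)
    have hdvd' : p ^ (b + 1) ∣ Nat.card (pre hφ Y) := by rw [card_pre]; exact hdvd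
    exact PD.of_bijective' (subRangeIso hφ B Y 2).inv.hom (map_add _)
      (ConcreteCategory.bijective_of_isIso (subRangeIso hφ B Y 2).inv)
      (pd_h2 hp B γ hB _ b hdvd')
  have h2 := PD.pi h1
  have h3 := PD.of_bijective'
    (T.H243.mackeyShapiro H φ.range (H173.rangeRep hφ B) 2).symm
    (T.H243.mackeyShapiro H φ.range (H173.rangeRep hφ B) 2).symm.map_add
    (T.H243.mackeyShapiro H φ.range (H173.rangeRep hφ B) 2).symm.bijective h2
  exact PD.of_bijective' (coindRangeCohIso hφ B H 2).inv.hom (map_add _)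
    (ConcreteCategory.bijective_of_isIso (coindRangeCohIso hφ B H 2).inv) h3

end Main

end Fermat.Agent.S55.K.AR.H243

end
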